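import Fermat.Agent.LevelOneControl.Space
import Mathlib.RingTheory.Algebraic.Integral

/-!
# Complex eigenforms under `p`-adic ones

The coefficients of a normalised eigenvector in the span of the rational forms generate a number
field, and each of its embeddings into `ℂ` gives an eigenform.
-/

set_option autoImplicit false
set_option linter.unusedSectionVars false

noncomputable section

open UpperHalfPlane hiding I
open PowerSeries
open scoped MatrixGroups ModularForm

namespace FA.LevelOneControl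

open FA.Eis FA.Tau FA.PadicForms FA.SiegelKlingen FA.LambdaHecke

variable {p : ℕ} [Fact p.Prime] {k : ℕ}

/-- **The complex eigenforms.** -/
theorem exists_complex {f : PowerSeries ℚ_[p]} (hf : f ∈ qpSpace p k) (h1 : coeff 1 f = 1)
    (hT : ∀ l : ℕ, l.Prime → tSer ((l : ℚ_[p]) ^ (k - 1)) l f = C (coeff l f) * f) :
    ∃ (L : IntermediateField ℚ ℚ_[p]) (hmem : ∀ n, 1 ≤ n → coeff n f ∈ L),
      FiniteDimensional ℚ L ∧ ∀ σ : L →+* ℂ, ∃ F : ModularForm 𝒮ℒ (k : ℤ),
        (∀ n (hn : 1 ≤ n), (qExpansion 1 ⇑F).coeff n = σ ⟨coeff n f, hmem n hn⟩) ∧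
        (coeff 0 f = 0 → (qExpansion 1 ⇑F).coeff 0 = 0) ∧
        ∀ l : ℕ, l.Prime → ∀ n, (qExpansion 1 ⇑F).coeff (n * l) +
            (if l ∣ n then (l : ℂ) ^ (k - 1) * (qExpansion 1 ⇑F).coeff (n / l) else 0) =
          (qExpansion 1 ⇑F).coeff l * (qExpansion 1 ⇑F).coeff n := by
  classical
  have hrel : ∀ l : ℕ, l.Prime → ∀ n, coeff (n * l) f +
      (if l ∣ n then (l : ℚ_[p]) ^ (k - 1) * coeff (n / l) f else 0) =
        coeff l f * coeff n f := fun l hl n => by
    have h := congrArg (coeff n) (hT l hl)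
    rwa [coeff_tSer, coeff_C_mul] at h
  obtain ⟨r, x, S, hS, hfx⟩ := exists_combination hf
  have hcoef : ∀ n, coeff n f = ∑ i, x i * ((coeff n (S i) : ℚ) : ℚ_[p]) := fun n => by
    rw [hfx, map_sum]
    exact Finset.sum_congr rfl fun i _ => by rw [coeff_C_mul, coeff_toQp]
  -- the rational span of the coefficients
  obtain ⟨M, hM⟩ : ∃ M : Submodule ℚ ℚ_[p],
      M = Submodule.span ℚ {y | ∃ n, 1 ≤ n ∧ coeff n f = y} := ⟨_, rfl⟩
  have hin : ∀ n, 1 ≤ n → coeff n f ∈ M := fun n hn => hM ▸ Submodule.subset_span ⟨n, hn, rfl⟩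
  have : Module.Finite ℚ ↥(Submodule.span ℚ (Set.range x)) :=
    .span_of_finite _ (Set.finite_range x)
  have : Module.Finite ℚ ↥M := Submodule.finiteDimensional_of_le
    (S₂ := Submodule.span ℚ (Set.range x)) (hM ▸ Submodule.span_le.2 (by
      rintro _ ⟨n, -, rfl⟩
      rw [hcoef]
      refine Submodule.sum_mem _ fun i _ => ?_
      rw [mul_comm, ← Rat.smul_def]
      exact Submodule.smul_mem _ _ (Submodule.subset_span ⟨i, rfl⟩)))
  have hlmul : ∀ l, l.Prime → ∀ y ∈ M, coeff l f * y ∈ M := fun l hl y hy => by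
    rw [hM] at hy
    induction hy using Submodule.span_induction with
    | mem y hy =>
      obtain ⟨n, hn, rfl⟩ := hy
      rw [← hrel l hl n]
      refine Submodule.add_mem _ (hin _ (Nat.mul_pos hn hl.pos)) ?_
      split_ifs with hd
      · rw [show (l : ℚ_[p]) ^ (k - 1) * coeff (n / l) f =
          ((l : ℚ) ^ (k - 1)) • coeff (n / l) f by rw [Rat.smul_def]; push_cast; rfl]
        exact Submodule.smul_mem _ _ (hin _ (Nat.div_pos (Nat.le_of_dvd hn hd) hl.pos))
      · exact Submodule.zero_mem _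
    | zero =>
      rw [mul_zero]
      exact Submodule.zero_mem _
    | add a b _ _ ha hb =>
      rw [mul_add]
      exact Submodule.add_mem _ ha hb
    | smul q a _ ha =>
      rw [mul_smul_comm]
      exact Submodule.smul_mem _ _ ha
  have hmul : ∀ m, 1 ≤ m → ∀ y ∈ M, coeff m f * y ∈ M := fun m => by
    induction m using Nat.strong_induction_on with
    | _ m ih =>
      intro hm y hy
      rcases hm.eq_or_lt with rfl | hm2
      · rw [h1, one_mul]
        exact hy
      have hl : (m.minFac).Prime := Nat.minFac_prime (by omega)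
      obtain ⟨m', hm'⟩ := Nat.minFac_dvd m
      have hm1 : 1 ≤ m' := Nat.one_le_iff_ne_zero.2 fun e => by
        rw [e, mul_zero] at hm'
        omega
      have hlt : m' < m := by
        rw [hm']
        exact lt_mul_of_one_lt_left hm1 hl.one_lt
      have e := hrel _ hl m'
      rw [mul_comm m', ← hm'] at e
      rw [eq_sub_of_add_eq e, sub_mul, mul_assoc]
      refine Submodule.sub_mem _ (hlmul _ hl _ (ih m' hlt hm1 y hy)) ?_
      split_ifs with hd
      · have h2 : 1 ≤ m' / m.minFac := Nat.div_pos (Nat.le_of_dvd hm1 hd) hl.pos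
        rw [mul_assoc, show (m.minFac : ℚ_[p]) ^ (k - 1) * (coeff (m' / m.minFac) f * y) =
          ((m.minFac : ℚ) ^ (k - 1)) • (coeff (m' / m.minFac) f * y) by
            rw [Rat.smul_def]; push_cast; rfl]
        exact Submodule.smul_mem _ _ (ih _ ((Nat.div_le_self _ _).trans_lt hlt) h2 y hy)
      · rw [zero_mul]
        exact Submodule.zero_mem _
  have hmm : ∀ a b, a ∈ M → b ∈ M → a * b ∈ M := fun a b ha hb => by
    rw [hM] at ha
    induction ha using Submodule.span_induction with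
    | mem a ha =>
      obtain ⟨n, hn, rfl⟩ := ha
      exact hmul n hn b hb
    | zero =>
      rw [zero_mul]
      exact Submodule.zero_mem _
    | add a c _ _ ha hc =>
      rw [add_mul]
      exact Submodule.add_mem _ ha hc
    | smul q a _ ha =>
      rw [smul_mul_assoc]
      exact Submodule.smul_mem _ _ ha
  obtain ⟨A, hA⟩ : ∃ A : Subalgebra ℚ ℚ_[p], A = M.toSubalgebra (h1 ▸ hin 1 le_rfl) hmm := ⟨_, rfl⟩
  have : Module.Finite ℚ ↥A := by
    rw [hA]
    exact (inferInstance : Module.Finite ℚ ↥M)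
  obtain ⟨L, hL⟩ : ∃ L : IntermediateField ℚ ℚ_[p], L.toSubalgebra = A :=
    ⟨A.toIntermediateField fun y hy => Subalgebra.inv_mem_of_algebraic A (x := ⟨y, hy⟩)
      (((Algebra.IsIntegral.isIntegral (R := ℚ) (⟨y, hy⟩ : ↥A)).isAlgebraic).algHom A.val), rfl⟩
  have hmem : ∀ n, 1 ≤ n → coeff n f ∈ L := fun n hn => by
    show coeff n f ∈ L.toSubalgebra
    rw [hL, hA]
    exact hin n hn
  have hfd : FiniteDimensional ℚ L := by
    show Module.Finite ℚ ↥L.toSubalgebra
    rw [hL]
    infer_instance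
  refine ⟨L, hmem, hfd, fun σ => ?_⟩
  -- the retraction
  obtain ⟨ρ, hρ⟩ := (Algebra.linearMap L ℚ_[p]).exists_leftInverse_of_injective
    (LinearMap.ker_eq_bot.2 (algebraMap L ℚ_[p]).injective)
  have hρL : ∀ (t : L) (z : ℚ_[p]), ρ ((t : ℚ_[p]) * z) = t * ρ z := fun t z => by
    rw [show ((t : ℚ_[p]) * z) = t • z from rfl, map_smul, smul_eq_mul]
  have hρ1 : ∀ t : L, ρ (t : ℚ_[p]) = t := fun t => by
    simpa using LinearMap.congr_fun hρ t
  obtain ⟨π, hπ⟩ : ∃ π : ℚ_[p] →+ ℂ, ∀ z, π z = σ (ρ z) :=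
    ⟨σ.toAddMonoidHom.comp ρ.toAddMonoidHom, fun _ => rfl⟩
  choose G hG using hS
  have hq : HasQ 1 (⇑(∑ i, π (x i) • G i)) (∑ i, π (x i) • (S i).map (Rat.castHom ℂ)) := by
    rw [FunLike.coe_sum]
    simp only [FunLike.coe_smul]
    exact HasQ.sum _ fun i _ => (hG i ▸ hasQ_form (G i)).smul _
  have hc : ∀ n, (qExpansion 1 ⇑(∑ i, π (x i) • G i)).coeff n = π (coeff n f) := fun n => by
    rw [hq.qExpansion_eq one_pos, map_sum, hcoef n, map_sum]
    refine Finset.sum_congr rfl fun i _ => ?_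
    rw [PowerSeries.coeff_smul, coeff_map, smul_eq_mul, hπ, hπ, mul_comm (x i),
      show ((coeff n (S i) : ℚ) : ℚ_[p]) = (((coeff n (S i) : ℚ) : L) : ℚ_[p]) by norm_cast,
      hρL, map_mul, map_ratCast, mul_comm, eq_ratCast]
  have hπL : ∀ (t : L) (z : ℚ_[p]), π ((t : ℚ_[p]) * z) = σ t * π z := fun t z => by
    rw [hπ, hπ, hρL, map_mul]
  refine ⟨∑ i, π (x i) • G i, fun n hn => ?_, fun h0 => ?_, fun l hl n => ?_⟩
  · rw [hc, hπ]
    exact congrArg σ (hρ1 ⟨_, hmem n hn⟩)
  · rw [hc, h0, map_zero]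
  · have e := congrArg π (hrel l hl n)
    rw [map_add, show coeff l f = ((⟨_, hmem l hl.one_lt.le⟩ : L) : ℚ_[p]) from rfl, hπL,
      show σ ⟨_, hmem l hl.one_lt.le⟩ = π (coeff l f) by
        rw [hπ]; exact congrArg σ (hρ1 ⟨_, hmem l hl.one_lt.le⟩).symm] at e
    rw [hc, hc, hc, hc, ← e]
    congr 1
    split_ifs
    · rw [show (l : ℚ_[p]) ^ (k - 1) = ((((l : L)) ^ (k - 1) : L) : ℚ_[p]) by push_cast; rfl, hπL,
        map_pow, map_natCast]
    · rw [map_zero]

end FA.LevelOneControl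

end
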