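import Fermat.Agent.LevelOneControl.Space
import Fermat.Agent.DeltaFamily.RankOne

/-!
# Hida's control theorem down to level one

`f ↦ f - β V f` matches the eigenforms of `T_p` of level one with a unit eigenvalue `α + β` and the
ordinary eigenforms of `U` with eigenvalue `α`.
-/

set_option autoImplicit false
set_option linter.unusedSectionVars false

noncomputable section

open PowerSeries

namespace FA.LevelOneControl

open FA.PadicForms FA.OrdinaryProj FA.LambdaHecke FA.DeltaFamily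

variable {p : ℕ} [Fact p.Prime] {k : ℕ} {α β a : ℚ_[p]} {f g : PowerSeries ℚ_[p]}

/-- `f - β V f`. -/
def stab (β : ℚ_[p]) (f : PowerSeries ℚ_[p]) : PowerSeries ℚ_[p] := f - C β * vSer p f

theorem coeff_stab (n : ℕ) :
    coeff n (stab β f) = coeff n f - if p ∣ n then β * coeff (n / p) f else 0 := by
  rw [stab, map_sub, coeff_C_mul, coeff_vSer]
  split_ifs <;> simp

theorem stab_sub (f g : PowerSeries ℚ_[p]) : stab β (f - g) = stab β f - stab β g := by
  rw [stab, stab, stab, vSer_sub]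
  ring

theorem stab_C_mul (c : ℚ_[p]) (f : PowerSeries ℚ_[p]) : stab β (C c * f) = C c * stab β f :=
  PowerSeries.ext fun n => by
    rw [coeff_C_mul, coeff_stab, coeff_stab, coeff_C_mul, coeff_C_mul]
    split_ifs <;> ring

theorem eq_zero_of_stab (hβ : β ≠ 1) (h : stab β f = 0) : f = 0 := by
  refine PowerSeries.ext fun n => ?_
  induction n using Nat.strong_induction_on with
  | _ n ih =>
    have e := congrArg (coeff n) h
    rw [coeff_stab, map_zero] at e
    simp only [map_zero] at ih ⊢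
    rcases Nat.eq_zero_or_pos n with rfl | hn
    · rw [if_pos (dvd_zero p), Nat.zero_div] at e
      have e' : coeff 0 f * (1 - β) = 0 := by linear_combination e
      exact (mul_eq_zero.1 e').resolve_right (sub_ne_zero.2 hβ.symm)
    · split_ifs at e with hd
      · rw [ih _ (Nat.div_lt_self hn (Fact.out : p.Prime).one_lt), mul_zero, sub_zero] at e
        exact e
      · rwa [sub_zero] at e

theorem stab_injective (hβ : β ≠ 1) : Function.Injective (stab (p := p) β) := fun f g h =>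
  sub_eq_zero.1 (eq_zero_of_stab hβ (by rw [stab_sub, h, sub_self]))

/-- The operators away from `p` commute with the stabilisation. -/
theorem tSer_stab (θ : ℚ_[p]) {l : ℕ} (hl : l.Prime) (hlp : l ≠ p) :
    tSer θ l (stab β f) = stab β (tSer θ l f) := by
  have hp : p.Prime := Fact.out
  have hco : p.Coprime l := (Nat.coprime_primes hp hl).2 hlp.symm
  refine PowerSeries.ext fun n => ?_
  have h1 : p ∣ n * l ↔ p ∣ n := hco.dvd_mul_right
  simp only [coeff_tSer, coeff_stab, h1]
  by_cases hp' : p ∣ n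
  · obtain ⟨i, rfl⟩ := hp'
    have h2 : l ∣ p * i ↔ l ∣ i := hco.symm.dvd_mul_left
    simp only [h2, dvd_mul_right, if_true,
      show p * i * l / p = i * l by rw [mul_assoc, Nat.mul_div_cancel_left _ hp.pos],
      Nat.mul_div_cancel_left _ hp.pos]
    by_cases hli : l ∣ i
    · obtain ⟨j, rfl⟩ := hli
      simp only [dvd_mul_right, if_true, Nat.mul_div_cancel_left _ hl.pos,
        show p * (l * j) / l = p * j by rw [mul_left_comm, Nat.mul_div_cancel_left _ hl.pos],
        Nat.mul_div_cancel_left _ hp.pos]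
      ring
    · simp only [hli, if_false]
      ring
  · simp only [hp', if_false, sub_zero]
    by_cases hln : l ∣ n
    · have h3 : ¬p ∣ n / l := fun h => hp' (h.trans (Nat.div_dvd_of_dvd hln))
      simp only [hln, h3, if_true, if_false, sub_zero]
    · simp only [hln, if_false]

/-- The stabilisation of an eigenform of `T_p` is an eigenform of `U`. -/
theorem uSer_stab {q : ℚ_[p]} (hT : tSer q p f = C a * f) (hsum : α + β = a)
    (hprod : α * β = q) : uSer p (stab β f) = C α * stab β f := by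
  refine PowerSeries.ext fun n => ?_
  have h := congrArg (coeff n) hT
  rw [coeff_tSer, coeff_C_mul, mul_comm n p] at h
  rw [coeff_uSer, coeff_C_mul, coeff_stab, coeff_stab, if_pos (dvd_mul_right p n),
    Nat.mul_div_cancel_left _ (Fact.out : p.Prime).pos]
  subst hsum hprod
  split_ifs at h ⊢ <;> linear_combination h

theorem norm_eq_of_prod (hα : ‖α‖ = 1) (hk : 2 ≤ k) (hprod : α * β = (p : ℚ_[p]) ^ (k - 1)) :
    ‖β‖ < 1 := by
  have h := congrArg norm hprod
  rw [norm_mul, hα, one_mul, norm_pow] at h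
  rw [h]
  exact pow_lt_one₀ (norm_nonneg _) Padic.norm_p_lt_one (by omega)

theorem ne_one_of_norm_lt (h : ‖β‖ < 1) : β ≠ 1 := fun e => by
  rw [e, norm_one] at h
  exact lt_irrefl _ h

/-- The stabilisation of a form of level one is ordinary. -/
theorem stab_mem_ordPart (h5 : 5 ≤ p) (hf : f ∈ qpSpace p k) (hα : ‖α‖ = 1)
    (hT : tSer ((p : ℚ_[p]) ^ (k - 1)) p f = C (α + β) * f)
    (hprod : α * β = (p : ℚ_[p]) ^ (k - 1)) : stab β f ∈ ordPart (natWeight p k) :=
  eigen_mem_ordPart h5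
    ((isPadicForm_of_mem h5 hf).sub h5 (((isPadicForm_of_mem h5 hf).vSer h5).C_mul β))
    (uSer_stab hT rfl hprod) hα

/-- `e (V h)` when `e h` lies on an eigenline of `U`. -/
theorem ordProj_vSer {κ : Weights p} (h5 : 5 ≤ p) {h : PowerSeries ℚ_[p]} (hh : IsPadicForm h κ)
    (hg : g ∈ ordPart κ) (hU : uSer p g = C α * g) (hα : α ≠ 0) {c : ℚ_[p]}
    (he : ordProj p h = C c * g) : ordProj p (vSer p h) = C (c / α) * g := by
  refine sub_eq_zero.1 (eq_zero_of_uSer (κ := κ) h5 (Submodule.sub_mem _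
    (ordProj_mem h5 (hh.vSer h5)) ?_) ?_)
  · rw [← PowerSeries.smul_eq_C_mul]
    exact Submodule.smul_mem _ _ hg
  · rw [uSer_sub, uSer_C_mul, hU, ← ordProj_uSer h5 (hh.vSer h5), uSer_vSer, he, ← mul_assoc,
      ← map_mul, div_mul_cancel₀ _ hα, sub_self]

/-- **Every ordinary eigenform of `U` comes from level one.** -/
theorem exists_levelOne (h5 : 5 ≤ p) (hk : 3 ≤ k) (hg : g ∈ ordPart (natWeight p k))
    (hα : ‖α‖ = 1) (hprod : α * β = (p : ℚ_[p]) ^ (k - 1)) (hU : uSer p g = C α * g) :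
    ∃ f ∈ qpSpace p k,
      tSer ((p : ℚ_[p]) ^ (k - 1)) p f = C (α + β) * f ∧ stab β f = g := by
  have hα0 : α ≠ 0 := fun e => by
    rw [e, norm_zero] at hα
    exact zero_ne_one hα
  have hβ := norm_eq_of_prod hα (by omega) hprod
  have hne : α - β ≠ 0 := sub_ne_zero.2 fun e => by
    rw [← e, hα] at hβ
    exact lt_irrefl _ hβ
  obtain ⟨q, hq⟩ : ∃ q, q = (p : ℚ_[p]) ^ (k - 1) := ⟨_, rfl⟩
  rw [← hq] at hprod ⊢
  have hTmem : ∀ x ∈ qpSpace p k, tSer q p x ∈ qpSpace p k := fun x hx => by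
    rw [hq]
    exact tSer_mem (by omega) (Fact.out : p.Prime) hx
  have hCmem : ∀ c : ℚ_[p], ∀ x ∈ qpSpace p k, C c * x ∈ qpSpace p k := fun c x hx => by
    rw [← PowerSeries.smul_eq_C_mul]
    exact Submodule.smul_mem _ c hx
  -- the part killed by the projection
  obtain ⟨K, hK⟩ : ∃ K : Submodule ℚ_[p] (PowerSeries ℚ_[p]),
      ∀ x, x ∈ K ↔ x ∈ qpSpace p k ∧ ordProj p x = 0 :=
    ⟨{ carrier := {x | x ∈ qpSpace p k ∧ ordProj p x = 0}
       add_mem' := fun {x y} hx hy => ⟨Submodule.add_mem _ hx.1 hy.1, by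
         rw [ordProj_add h5 (isPadicForm_of_mem h5 hx.1) (isPadicForm_of_mem h5 hy.1), hx.2, hy.2,
           add_zero]⟩
       zero_mem' := ⟨Submodule.zero_mem _, ordProj_zero⟩
       smul_mem' := fun c x hx => by
         rw [PowerSeries.smul_eq_C_mul]
         exact ⟨hCmem c x hx.1, by
           rw [ordProj_C_mul h5 (isPadicForm_of_mem h5 hx.1), hx.2, mul_zero]⟩ }, fun _ => Iff.rfl⟩
  have : Module.Finite ℚ_[p] ↥K := Submodule.finiteDimensional_of_le fun x hx => ((hK x).1 hx).1
  have hdiff : ∀ x ∈ qpSpace p k, ∀ c, ordProj p x = C c * g →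
      ordProj p (tSer q p x - C (α + β) * x) = 0 := fun x hx c hc => by
    have hF := isPadicForm_of_mem h5 hx
    rw [tSer_self, sub_eq_add_neg (uSer p x + C q * vSer p x), ← neg_mul, ← map_neg,
      ordProj_add h5 ((hF.uSer h5).add h5 ((hF.vSer h5).C_mul q)) (hF.C_mul _),
      ordProj_add h5 (hF.uSer h5) ((hF.vSer h5).C_mul q), ordProj_C_mul h5 (hF.vSer h5),
      ordProj_C_mul h5 hF, ordProj_uSer h5 hF, ordProj_vSer h5 hF hg hU hα0 hc, hc, uSer_C_mul, hU]
    refine PowerSeries.ext fun n => ?_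
    simp only [map_add, coeff_C_mul, map_zero]
    rw [← hprod]
    field_simp
    ring
  obtain ⟨T, hT⟩ : ∃ T : ↥K →ₗ[ℚ_[p]] ↥K, ∀ x : ↥K,
      (T x : PowerSeries ℚ_[p]) = tSer q p (x : PowerSeries ℚ_[p]) - C (α + β) * x :=
    ⟨((tSer q p - (α + β) • LinearMap.id : PowerSeries ℚ_[p] →ₗ[ℚ_[p]] _).restrict
      (p := K) (q := K) fun x hx => by
        obtain ⟨h1, h2⟩ := (hK x).1 hx
        simp only [LinearMap.sub_apply, LinearMap.smul_apply, LinearMap.id_apply,
          PowerSeries.smul_eq_C_mul]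
        exact (hK _).2 ⟨Submodule.sub_mem _ (hTmem x h1) (hCmem _ x h1),
          hdiff x h1 0 (by rw [h2, map_zero, zero_mul])⟩), fun x => by
      simp [PowerSeries.smul_eq_C_mul]⟩
  have hinj : Function.Injective T := (injective_iff_map_eq_zero T).2 fun x hx => by
    obtain ⟨h1, h2⟩ := (hK x).1 x.2
    have hx' : tSer q p (x : PowerSeries ℚ_[p]) = C (α + β) * x :=
      sub_eq_zero.1 (by rw [← hT, hx]; rfl)
    have hs := ((mem_ordPart h5).1 (stab_mem_ordPart h5 h1 hα (hq ▸ hx') (hq ▸ hprod))).2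
    have hF := isPadicForm_of_mem h5 h1
    have hv := ordProj_vSer (c := 0) h5 hF hg hU hα0 (by rw [h2, map_zero, zero_mul])
    rw [stab, sub_eq_add_neg, ← neg_mul, ← map_neg, ordProj_add h5 hF ((hF.vSer h5).C_mul _),
      ordProj_C_mul h5 (hF.vSer h5), h2, hv, zero_div, map_zero, zero_mul, mul_zero, add_zero,
      map_neg, neg_mul, ← sub_eq_add_neg] at hs
    exact Subtype.ext (eq_zero_of_stab (ne_one_of_norm_lt hβ) hs.symm)
  -- a first preimage
  obtain ⟨h, hh, hhf, hhe⟩ := exists_classical (f := C (α / (α - β)) * g) h5 hk (by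
    rw [← PowerSeries.smul_eq_C_mul]
    exact Submodule.smul_mem _ _ hg)
  have hh' : h ∈ qpSpace p k := by
    refine Submodule.span_mono ?_ hh
    rintro s ⟨S, hS, rfl⟩
    exact ⟨S, hS, rfl⟩
  obtain ⟨y, hy⟩ := LinearMap.injective_iff_surjective.1 hinj
    ⟨tSer q p h - C (α + β) * h, (hK _).2
      ⟨Submodule.sub_mem _ (hTmem h hh') (hCmem _ h hh'), hdiff h hh' _ hhe⟩⟩
  obtain ⟨hy1, hy2⟩ := (hK y).1 y.2
  refine ⟨h - y, Submodule.sub_mem _ hh' hy1, ?_, ?_⟩
  · have e := congrArg (fun z : ↥K => (z : PowerSeries ℚ_[p])) hy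
    simp only [hT] at e
    rw [map_sub, mul_sub]
    linear_combination -e
  · obtain ⟨f, hfe⟩ : ∃ f, f = h - y := ⟨_, rfl⟩
    rw [← hfe]
    have hf : f ∈ qpSpace p k := hfe ▸ Submodule.sub_mem _ hh' hy1
    have hF := isPadicForm_of_mem h5 hf
    have hTf : tSer q p f = C (α + β) * f := by
      have e := congrArg (fun z : ↥K => (z : PowerSeries ℚ_[p])) hy
      simp only [hT] at e
      rw [hfe, map_sub, mul_sub]
      linear_combination -e
    have he : ordProj p f = C (α / (α - β)) * g := by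
      have e : h = f + y := by rw [hfe, sub_add_cancel]
      rw [e, ordProj_add h5 hF (isPadicForm_of_mem h5 hy1), hy2, add_zero] at hhe
      exact hhe
    have hs := ((mem_ordPart h5).1 (stab_mem_ordPart h5 hf hα (hq ▸ hTf) (hq ▸ hprod))).2
    rw [stab, sub_eq_add_neg, ← neg_mul, ← map_neg, ordProj_add h5 hF ((hF.vSer h5).C_mul _),
      ordProj_C_mul h5 (hF.vSer h5), he, ordProj_vSer h5 hF hg hU hα0 he] at hs
    rw [stab, sub_eq_add_neg, ← neg_mul, ← map_neg, ← hs]
    refine PowerSeries.ext fun n => ?_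
    simp only [map_add, coeff_C_mul]
    field_simp
    ring

/-- **The stabilisation is a bijection.** -/
theorem bijOn_stab (h5 : 5 ≤ p) (hk : 3 ≤ k) (hα : ‖α‖ = 1)
    (hprod : α * β = (p : ℚ_[p]) ^ (k - 1)) :
    Set.BijOn (stab β) {f | f ∈ qpSpace p k ∧ tSer ((p : ℚ_[p]) ^ (k - 1)) p f = C (α + β) * f}
      {g | g ∈ ordPart (natWeight p k) ∧ uSer p g = C α * g} :=
  ⟨fun _ hf => ⟨stab_mem_ordPart h5 hf.1 hα hf.2 hprod, uSer_stab hf.2 rfl hprod⟩,
    (stab_injective (ne_one_of_norm_lt (norm_eq_of_prod hα (by omega) hprod))).injOn,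
    fun g hg => by
      obtain ⟨f, h1, h2, h3⟩ := exists_levelOne h5 hk hg.1 hα hprod hg.2
      exact ⟨f, ⟨h1, h2⟩, h3⟩⟩

end FA.LevelOneControl

end
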