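import Fermat.Agent.LevelOneControl.Family

/-!
# Level one eigenforms congruent to `Δ` and to `11a3` modulo high powers

Every weight congruent to `k` modulo `(p - 1) p ^ n` carries a cusp eigenform congruent to the lone
cusp form of weight `k` modulo `p ^ (n + 1)`.
-/

set_option autoImplicit false
set_option linter.unusedSectionVars false

noncomputable section

open UpperHalfPlane hiding I
open PowerSeries
open scoped MatrixGroups ModularForm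

namespace FA.LevelOneControl

open FA.PadicForms FA.OrdinaryProj FA.LambdaForms FA.LambdaHecke FA.DeltaFamily

variable {p : ℕ} [Fact p.Prime] {hp2 : p ≠ 2} {c : ZMod (p - 1)} {k : ℕ}

/-- The family near a weight `m₀` gives cusp eigenforms congruent to its value there. -/
theorem exists_cusp_near (h5 : 5 ≤ p) (hk : k ∈ sixWeights) (hkc : (k : ZMod (p - 1)) = c)
    (ha : ¬(p : ℤ) ∣ coeff p (cuspInt k)) {m m₀ n : ℕ} (hm : 3 ≤ m)
    (hmc : (m₀ : ZMod (p - 1)) = c) (h : m ≡ m₀ [MOD (p - 1) * p ^ n]) (b : ℕ → ℤ)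
    (hb : ∀ j, ¬p ∣ j →
      evalLam hp2 (m₀ : ℤ_[p]) (coeff j (deltaFam hp2 h5 hk hkc ha)) = (b j : ℤ_[p])) :
    ∃ (L : IntermediateField ℚ ℚ_[p]) (σ : L →+* ℂ) (G : CuspForm 𝒮ℒ (m : ℤ)) (a : ℕ → L),
      FiniteDimensional ℚ L ∧ (∀ j, (qExpansion 1 ⇑G).coeff j = σ (a j)) ∧ a 1 = 1 ∧
      (∀ l : ℕ, l.Prime → ∀ j, (qExpansion 1 ⇑G).coeff (j * l) +
          (if l ∣ j then (l : ℂ) ^ (m - 1) * (qExpansion 1 ⇑G).coeff (j / l) else 0) =
        (qExpansion 1 ⇑G).coeff l * (qExpansion 1 ⇑G).coeff j) ∧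
      ‖((a p : L) : ℚ_[p])‖ = 1 ∧
      ∀ j, ¬p ∣ j →
        ‖((a j : L) : ℚ_[p]) - (b j : ℚ_[p])‖ ≤ (p : ℝ) ^ (-((n + 1 : ℕ) : ℤ)) := by
  obtain ⟨f, hf, hf1, hfp, hfT, hoff, h0⟩ := exists_family_levelOne h5
    (deltaFam_mem (hp2 := hp2) (h5 := h5) (hk := hk) (hkc := hkc) (ha := ha)) deltaFam_one
    ⟨_, deltaFam_uSer⟩ (fun l hl hlp => ⟨_, deltaFam_tSer hl hlp⟩) hm
    ((class_of_modEq h).trans hmc)
  obtain ⟨L, σ, G, a, hfd, haj, hG, ha1, hGT⟩ :=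
    exists_cusp_complex hf (h0 deltaFam_zero) hf1 hfT
  refine ⟨L, σ, G, a, hfd, hG, ha1, hGT, ?_, fun j hj => ?_⟩
  · rw [haj, ← PadicInt.norm_def]
    exact PadicInt.isUnit_iff.1 hfp
  · rw [haj, hoff j hj, ← PadicInt.coe_intCast, ← hb j hj, ← PadicInt.coe_sub, ← PadicInt.norm_def]
    exact norm_evalLam_natCast_sub _ h

/-- At `k` the family has the coefficients of the cusp form away from `p`. -/
theorem evalLam_coeff_self (h5 : 5 ≤ p) (hk : k ∈ sixWeights) (hkc : (k : ZMod (p - 1)) = c)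
    (ha : ¬(p : ℤ) ∣ coeff p (cuspInt k)) {j : ℕ} (hj : ¬p ∣ j) :
    evalLam hp2 (k : ℤ_[p]) (coeff j (deltaFam hp2 h5 hk hkc ha)) =
      ((coeff j (cuspInt k) : ℤ) : ℤ_[p]) := by
  obtain ⟨α, β, -, -, -, h⟩ := deltaFam_at_weight (hp2 := hp2) h5 hk hkc ha
  have e := congrArg (coeff j) h
  rw [map_sub, coeff_C_mul, coeff_vSer, if_neg hj, mul_zero, sub_zero, coeff_toQps, coeff_toQps,
    coeff_spec, coeff_map, eq_intCast] at e
  exact Subtype.ext e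

attribute [local instance] fact_prime_eleven

/-- **Eigenforms congruent to the elliptic curve of conductor `11`.** -/
theorem exists_cusp_eleven {m n : ℕ} (hm : 3 ≤ m) (h : m ≡ 2 [MOD 10 * 11 ^ n]) :
    ∃ (L : IntermediateField ℚ ℚ_[11]) (σ : L →+* ℂ) (G : CuspForm 𝒮ℒ (m : ℤ)) (a : ℕ → L),
      FiniteDimensional ℚ L ∧ (∀ j, (qExpansion 1 ⇑G).coeff j = σ (a j)) ∧ a 1 = 1 ∧
      (∀ l : ℕ, l.Prime → ∀ j, (qExpansion 1 ⇑G).coeff (j * l) +
          (if l ∣ j then (l : ℂ) ^ (m - 1) * (qExpansion 1 ⇑G).coeff (j / l) else 0) =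
        (qExpansion 1 ⇑G).coeff l * (qExpansion 1 ⇑G).coeff j) ∧
      ‖((a 11 : L) : ℚ_[11])‖ = 1 ∧
      ∀ j, ¬11 ∣ j → ‖((a j : L) : ℚ_[11]) -
          (((⟨0, -1, 1, 0, 0⟩ : WeierstrassCurve ℚ).LFunction j : ℤ) : ℚ_[11])‖ ≤
        (11 : ℝ) ^ (-((n + 1 : ℕ) : ℤ)) := by
  obtain ⟨hk, hkc, ha, hval⟩ := deltaFam_eleven
  have hval' : ∀ j, evalLam (p := 11) (by norm_num) ((2 : ℕ) : ℤ_[11])
      (coeff j (deltaFam (p := 11) (by norm_num) (by norm_num) hk hkc ha)) =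
        (((⟨0, -1, 1, 0, 0⟩ : WeierstrassCurve ℚ).LFunction j : ℤ) : ℤ_[11]) := fun j => by
    rw [← coeff_map, hval, coeff_map, eq_intCast, FA.EtaEleven.LFunction_eq_series]
    rfl
  obtain ⟨L, σ, G, a, h1, h2, h3, h4, h5, h6⟩ := exists_cusp_near (p := 11) (hp2 := by norm_num)
    (by norm_num) hk hkc ha (m := m) (m₀ := 2) (n := n) hm rfl h _ fun j _ => hval' j
  exact ⟨L, σ, G, a, h1, h2, h3, h4, h5, fun j hj => by simpa using h6 j hj⟩

end FA.LevelOneControl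

end
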