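import Fermat.Agent.LevelOneControl.Control

/-!
# Normalised eigenforms

An ordinary eigenform of weight `k` with integral coefficients is the stabilisation of a normalised
eigenform of level one with integral coefficients.
-/

set_option autoImplicit false
set_option linter.unusedSectionVars false

noncomputable section

open PowerSeries

namespace FA.LevelOneControl

open FA.PadicForms FA.OrdinaryProj FA.LambdaHecke FA.DeltaFamily

variable {p : ℕ} [Fact p.Prime] {k : ℕ}

theorem toQps_uSer (g : PowerSeries ℤ_[p]) : toQps p (uSer p g) = uSer p (toQps p g) :=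
  PowerSeries.ext fun n => by simp [coeff_uSer]

theorem toQps_tSer (θ : ℤ_[p]) (l : ℕ) (g : PowerSeries ℤ_[p]) :
    toQps p (tSer θ l g) = tSer (θ : ℚ_[p]) l (toQps p g) := by
  rw [toQps, map_tSer]
  rfl

theorem toQps_C_mul (x : ℤ_[p]) (g : PowerSeries ℤ_[p]) :
    toQps p (C x * g) = C (x : ℚ_[p]) * toQps p g := by
  rw [map_mul, toQps, map_C]
  rfl

/-- A unit root: the eigenvalue of an ordinary form. -/
theorem isUnit_of_ordinary (h5 : 5 ≤ p) {g : PowerSeries ℤ_[p]} {u : ℤ_[p]}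
    (hg : toQps p g ∈ ordPart (natWeight p k)) (h1 : coeff 1 g = 1) (hU : uSer p g = C u * g) :
    IsUnit u := by
  obtain ⟨hf, he⟩ := (mem_ordPart h5).1 hg
  by_contra hn
  have h := ordProj_eigen_eq_zero hf (c := (u : ℚ_[p])) (by rw [← toQps_uSer, hU, toQps_C_mul])
    (by rw [← PadicInt.norm_def]; exact PadicInt.not_isUnit_iff.1 hn)
  rw [he] at h
  have h' := congrArg (coeff 1) h
  rw [coeff_toQps, h1, map_zero, PadicInt.coe_one] at h'
  exact one_ne_zero h'

/-- **The normalised eigenform of level one under an ordinary one.** -/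
theorem exists_int_levelOne (h5 : 5 ≤ p) (hk : 3 ≤ k) {g : PowerSeries ℤ_[p]} {u : ℤ_[p]}
    (hg : toQps p g ∈ ordPart (natWeight p k)) (h1 : coeff 1 g = 1) (hU : uSer p g = C u * g)
    (hT : ∀ l : ℕ, l.Prime → l ≠ p → ∃ t, tSer ((l : ℤ_[p]) ^ (k - 1)) l g = C t * g) :
    ∃ (f : PowerSeries ℤ_[p]) (β : ℤ_[p]), IsUnit u ∧ u * β = (p : ℤ_[p]) ^ (k - 1) ∧
      toQps p f ∈ qpSpace p k ∧ coeff 1 f = 1 ∧ coeff p f = u + β ∧
      (∀ l : ℕ, l.Prime → tSer ((l : ℤ_[p]) ^ (k - 1)) l f = C (coeff l f) * f) ∧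
      g = f - C β * vSer p f ∧ (∀ n, ¬p ∣ n → coeff n f = coeff n g) ∧
      (coeff 0 g = 0 → coeff 0 f = 0) := by
  have hp : p.Prime := Fact.out
  have hu := isUnit_of_ordinary h5 hg h1 hU
  obtain ⟨v, hv⟩ := hu
  obtain ⟨β, hβ⟩ : ∃ β : ℤ_[p], β = (↑v⁻¹ : ℤ_[p]) * (p : ℤ_[p]) ^ (k - 1) := ⟨_, rfl⟩
  have hprod : u * β = (p : ℤ_[p]) ^ (k - 1) := by
    rw [hβ, ← hv, ← mul_assoc, Units.mul_inv, one_mul]
  have hprod' : (u : ℚ_[p]) * β = (p : ℚ_[p]) ^ (k - 1) := by
    rw [← PadicInt.coe_mul, hprod, PadicInt.coe_pow, PadicInt.coe_natCast]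
  have hα : ‖(u : ℚ_[p])‖ = 1 := by
    rw [← PadicInt.norm_def]
    exact PadicInt.isUnit_iff.1 (hv ▸ v.isUnit)
  have hβlt : ‖(β : ℚ_[p])‖ < 1 := norm_eq_of_prod hα (by omega) hprod'
  have hβ1 : (β : ℚ_[p]) ≠ 1 := ne_one_of_norm_lt hβlt
  obtain ⟨F, hF, hFT, hFg⟩ := exists_levelOne h5 hk hg hα hprod'
    (by rw [← toQps_uSer, hU, toQps_C_mul])
  -- the coefficients are integral
  have hcoe : ∀ n, ((coeff n g : ℤ_[p]) : ℚ_[p]) =
      coeff n F - if p ∣ n then (β : ℚ_[p]) * coeff (n / p) F else 0 := fun n => by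
    rw [← coeff_toQps, ← hFg, coeff_stab]
  have hone : ‖(1 : ℚ_[p]) - β‖ = 1 := by
    rw [sub_eq_add_neg, IsUltrametricDist.norm_add_eq_max_of_norm_ne_norm
      (by rw [norm_neg, norm_one]; exact hβlt.ne'), norm_neg, norm_one, max_eq_left hβlt.le]
  have hint : ∀ n, ‖coeff n F‖ ≤ 1 := fun n => by
    induction n using Nat.strong_induction_on with
    | _ n ih =>
      have e := hcoe n
      rcases Nat.eq_zero_or_pos n with rfl | hn
      · rw [if_pos (dvd_zero p), Nat.zero_div] at e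
        have e' : ‖coeff 0 F‖ * ‖(1 : ℚ_[p]) - β‖ ≤ 1 := by
          rw [← norm_mul, show coeff 0 F * (1 - (β : ℚ_[p])) = coeff 0 F - β * coeff 0 F by ring,
            ← e]
          exact (coeff 0 g).2
        rwa [hone, mul_one] at e'
      · rw [eq_comm, sub_eq_iff_eq_add] at e
        rw [e]
        refine (Padic.nonarchimedean _ _).trans (max_le (coeff n g).2 ?_)
        split_ifs
        · rw [norm_mul]
          exact mul_le_one₀ β.2 (norm_nonneg _) (ih _ (Nat.div_lt_self hn hp.one_lt))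
        · rw [norm_zero]
          exact zero_le_one
  obtain ⟨f, hf⟩ : ∃ f : PowerSeries ℤ_[p], toQps p f = F :=
    ⟨PowerSeries.mk fun n => ⟨_, hint n⟩, PowerSeries.ext fun n => by simp⟩
  subst hf
  have hgf : g = f - C β * vSer p f := by
    refine PowerSeries.ext fun n => Subtype.ext ?_
    rw [map_sub, coeff_C_mul, coeff_vSer, PadicInt.coe_sub, PadicInt.coe_mul, hcoe n, coeff_toQps,
      coeff_toQps]
    split_ifs <;> simp
  have hoff : ∀ n, ¬p ∣ n → coeff n f = coeff n g := fun n hn => by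
    rw [hgf, map_sub, coeff_C_mul, coeff_vSer, if_neg hn, mul_zero, sub_zero]
  have hf1 : coeff 1 f = 1 := (hoff 1 hp.not_dvd_one).trans h1
  have hev : ∀ (l : ℕ) (t : ℤ_[p]), l.Prime →
      tSer ((l : ℤ_[p]) ^ (k - 1)) l f = C t * f → t = coeff l f := fun l t hl h => by
    have e := congrArg (coeff 1) h
    rw [coeff_tSer, one_mul, if_neg hl.not_dvd_one, add_zero, coeff_C_mul, hf1, mul_one] at e
    exact e.symm
  have hTp : tSer ((p : ℤ_[p]) ^ (k - 1)) p f = C (u + β) * f := toQps_injective (by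
    rw [toQps_tSer, toQps_C_mul, PadicInt.coe_pow, PadicInt.coe_natCast, PadicInt.coe_add]
    exact hFT)
  refine ⟨f, β, hv ▸ v.isUnit, hprod, hF, hf1, (hev p _ hp hTp).symm, fun l hl => ?_, hgf, hoff,
    fun h0 => ?_⟩
  · rcases eq_or_ne l p with rfl | hlp
    · rw [← hev _ _ hl hTp]
      exact hTp
    · obtain ⟨t, ht⟩ := hT l hl hlp
      have e : tSer ((l : ℤ_[p]) ^ (k - 1)) l f = C t * f := toQps_injective (stab_injective hβ1 (by
        rw [toQps_tSer, toQps_C_mul, ← tSer_stab _ hl hlp, stab_C_mul, hFg, ← toQps_tSer,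
          ← toQps_C_mul, ht]))
      rw [← hev l t hl e]
      exact e
  · refine Subtype.ext ((mul_eq_zero.1 ?_).resolve_right (sub_ne_zero.2 hβ1.symm))
    have e := hcoe 0
    rw [h0, if_pos (dvd_zero p), Nat.zero_div, coeff_toQps, PadicInt.coe_zero] at e
    linear_combination -e

end FA.LevelOneControl

end
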