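import Fermat.Agent.LevelOneControl.Eigen
import Fermat.Agent.LevelOneControl.Complex
import Fermat.Agent.DeltaFamily.Examples
import Fermat.Agent.Root.SummaryLambdaAdic

/-!
# The classical points of an eigenfamily

At an integer `k ≥ 3` of the class an eigenfamily is the stabilisation of a level one eigenform;
congruent weights give congruent coefficients.
-/

set_option autoImplicit false
set_option linter.unusedSectionVars false

noncomputable section

open UpperHalfPlane hiding I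
open PowerSeries
open scoped MatrixGroups ModularForm

namespace FA.LevelOneControl

open FA.PadicForms FA.OrdinaryProj FA.LambdaForms FA.LambdaHecke FA.DeltaFamily

variable {p : ℕ} [Fact p.Prime] {hp2 : p ≠ 2} {c : ZMod (p - 1)}

local notation "Λ" => PowerSeries ℤ_[p]

theorem norm_xAt_sub_le (hp2 : p ≠ 2) {s t : ℤ_[p]} {n : ℕ}
    (h : PadicInt.toZModPow n s = PadicInt.toZModPow n t) :
    ‖xAt s - xAt t‖ ≤ (p : ℝ) ^ (-((n + 1 : ℕ) : ℤ)) := by
  rw [PadicInt.norm_le_pow_iff_mem_span_pow, ← PadicInt.ker_toZModPow, RingHom.mem_ker, xAt, xAt,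
    sub_sub_sub_cancel_right, map_sub, sub_eq_zero]
  exact (FA.PadicIwasawa.toZModPow_expOne_eq_iff hp2).2 h

/-- Congruent weights: congruent values. -/
theorem norm_evalLam_natCast_sub (θ : Λ) {m k n : ℕ} (h : m ≡ k [MOD (p - 1) * p ^ n]) :
    ‖evalLam hp2 (m : ℤ_[p]) θ - evalLam hp2 (k : ℤ_[p]) θ‖ ≤
      (p : ℝ) ^ (-((n + 1 : ℕ) : ℤ)) := by
  refine (norm_evalLam_sub θ _ _).trans (norm_xAt_sub_le hp2 ?_)
  rw [map_natCast, map_natCast, ZMod.natCast_eq_natCast_iff]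
  exact h.of_mul_left _

theorem class_of_modEq {m k n : ℕ} (h : m ≡ k [MOD (p - 1) * p ^ n]) :
    (m : ZMod (p - 1)) = (k : ZMod (p - 1)) :=
  (ZMod.natCast_eq_natCast_iff _ _ _).2 (h.of_mul_right _)

/-- **The level one eigenform at an integer of the class.** -/
theorem exists_family_levelOne (h5 : 5 ≤ p) {F : PowerSeries (PowerSeries ℤ_[p])}
    (hF : F ∈ lamOrd hp2 c) (h1 : coeff 1 F = 1) (hU : ∃ u, uSer p F = C u * F)
    (hT : ∀ l : ℕ, l.Prime → l ≠ p → ∃ t, tSer (thetaLam c l) l F = C t * F)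
    {m : ℕ} (hm : 3 ≤ m) (hmc : (m : ZMod (p - 1)) = c) :
    ∃ f : PowerSeries ℤ_[p], toQps p f ∈ qpSpace p m ∧ coeff 1 f = 1 ∧ IsUnit (coeff p f) ∧
      (∀ l : ℕ, l.Prime → tSer ((l : ℤ_[p]) ^ (m - 1)) l f = C (coeff l f) * f) ∧
      (∀ n, ¬p ∣ n → coeff n f = evalLam hp2 (m : ℤ_[p]) (coeff n F)) ∧
      (coeff 0 F = 0 → coeff 0 f = 0) := by
  obtain ⟨u, hu⟩ := hU
  subst hmc
  obtain ⟨g, hg⟩ : ∃ g, g = F.map (evalLam hp2 (m : ℤ_[p])) := ⟨_, rfl⟩
  have hgo : toQps p g ∈ ordPart (natWeight p m) :=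
    hg ▸ ((mem_lamOrd h5).1 hF).mem_ordPart h5 (m : ℤ_[p])
  have hgU : uSer p g = C (evalLam hp2 (m : ℤ_[p]) u) * g := by
    have h := congrArg (PowerSeries.map (evalLam hp2 (m : ℤ_[p]))) hu
    rw [map_mul, map_C, ← hg] at h
    rw [← h, hg]
    exact PowerSeries.ext fun n => by simp [coeff_uSer]
  obtain ⟨f, β, hunit, hprod, hf, hf1, hfp, hfT, -, hoff, h0⟩ := exists_int_levelOne h5 hm hgo
    (by rw [hg, coeff_map, h1, map_one]) hgU fun l hl hlp => by
      obtain ⟨t, ht⟩ := hT l hl hlp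
      have h := congrArg (PowerSeries.map (evalLam hp2 (m : ℤ_[p]))) ht
      rw [map_tSer, map_mul, map_C, ← hg, evalLam_thetaLam h5
        (fun e => hlp ((Nat.prime_dvd_prime_iff_eq Fact.out hl).1 e).symm) (by omega) rfl] at h
      exact ⟨_, h⟩
  refine ⟨f, hf, hf1, ?_, hfT, fun n hn => by rw [hoff n hn, hg, coeff_map],
    fun h => h0 (by rw [hg, coeff_map, h, map_zero])⟩
  rw [hfp, PadicInt.isUnit_iff]
  have hβ : ‖β‖ < 1 := by
    have h := congrArg norm hprod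
    rw [norm_mul, PadicInt.isUnit_iff.1 hunit, one_mul, norm_pow] at h
    rw [h]
    exact pow_lt_one₀ (norm_nonneg _) (PadicInt.norm_natCast_lt_one_iff.2 dvd_rfl) (by omega)
  rw [IsUltrametricDist.norm_add_eq_max_of_norm_ne_norm
    (by rw [PadicInt.isUnit_iff.1 hunit]; exact hβ.ne'), PadicInt.isUnit_iff.1 hunit,
    max_eq_left hβ.le]

/-- An embedding into `ℂ` exists. -/
theorem exists_embedding (L : IntermediateField ℚ ℚ_[p]) [FiniteDimensional ℚ L] :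
    Nonempty (L →+* ℂ) :=
  ⟨(IsAlgClosed.lift : L →ₐ[ℚ] ℂ).toRingHom⟩

/-- **A complex cusp eigenform under a cuspidal one over `ℤ_p`.** -/
theorem exists_cusp_complex {m : ℕ} {f : PowerSeries ℤ_[p]} (hf : toQps p f ∈ qpSpace p m)
    (h0 : coeff 0 f = 0) (h1 : coeff 1 f = 1)
    (hT : ∀ l : ℕ, l.Prime → tSer ((l : ℤ_[p]) ^ (m - 1)) l f = C (coeff l f) * f) :
    ∃ (L : IntermediateField ℚ ℚ_[p]) (σ : L →+* ℂ) (G : CuspForm 𝒮ℒ (m : ℤ)) (a : ℕ → L),
      FiniteDimensional ℚ L ∧ (∀ n, ((a n : L) : ℚ_[p]) = ((coeff n f : ℤ_[p]) : ℚ_[p])) ∧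
      (∀ n, (qExpansion 1 ⇑G).coeff n = σ (a n)) ∧ a 1 = 1 ∧
      ∀ l : ℕ, l.Prime → ∀ n, (qExpansion 1 ⇑G).coeff (n * l) +
          (if l ∣ n then (l : ℂ) ^ (m - 1) * (qExpansion 1 ⇑G).coeff (n / l) else 0) =
        (qExpansion 1 ⇑G).coeff l * (qExpansion 1 ⇑G).coeff n := by
  obtain ⟨L, hmem, hfd, hF⟩ := exists_complex hf (by rw [coeff_toQps, h1, PadicInt.coe_one])
    fun l hl => by
      have h := congrArg (toQps p) (hT l hl)
      rwa [toQps_tSer, toQps_C_mul, PadicInt.coe_pow, PadicInt.coe_natCast, ← coeff_toQps] at h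
  obtain ⟨σ⟩ := exists_embedding L
  obtain ⟨F, hFn, hF0, hFT⟩ := hF σ
  have hz : coeff 0 (toQps p f) = 0 := by rw [coeff_toQps, h0, PadicInt.coe_zero]
  obtain ⟨a, ha⟩ : ∃ a : ℕ → L, ∀ n, a n =
      if hn : 1 ≤ n then ⟨coeff n (toQps p f), hmem n hn⟩ else 0 := ⟨_, fun _ => rfl⟩
  refine ⟨L, σ, F.toCuspForm (hF0 hz), a, hfd, fun n => ?_, fun n => ?_, ?_, hFT⟩
  · rw [ha]
    split_ifs with hn
    · exact coeff_toQps n f
    · rw [Nat.eq_zero_of_not_pos hn, h0, PadicInt.coe_zero]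
      rfl
  · show (qExpansion 1 ⇑F).coeff n = σ (a n)
    rw [ha]
    split_ifs with hn
    · exact hFn n hn
    · rw [Nat.eq_zero_of_not_pos hn, hF0 hz, map_zero]
  · rw [ha, dif_pos le_rfl]
    exact Subtype.ext (show coeff 1 (toQps p f) = 1 by rw [coeff_toQps, h1, PadicInt.coe_one])

end FA.LevelOneControl

end
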