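import Fermat.Agent.DeltaFamily.Forms

/-!
# The classical forms of level one inside `p`-adic series

The rational expansions of a weight form a finite dimensional space, so does its extension to
`ℚ_p`; the Hecke operators act on it.
-/

set_option autoImplicit false
set_option linter.unusedSectionVars false

noncomputable section

open UpperHalfPlane hiding I
open PowerSeries
open scoped MatrixGroups ModularForm

namespace FA.LevelOneControl

open FA.Eis FA.Tau FA.PadicForms FA.OrdinaryProj FA.SiegelKlingen FA.LambdaHecke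

/-- The rational expansions of weight `k`. -/
def ratSpace (k : ℕ) : Submodule ℚ (PowerSeries ℚ) where
  carrier := {S | IsRatForm k S}
  add_mem' := IsRatForm.add
  zero_mem' := ⟨0, by simp [UpperHalfPlane.qExpansion_zero]⟩
  smul_mem' r _ h := h.smul r

/-- The monomials in `E₄, E₆` of exponents at most `k`. -/
def monoSet (k : ℕ) : Set (PowerSeries ℚ) :=
  (fun q => (monoInt q).map (Int.castRingHom ℚ)) ''
    ↑(Finset.range (k + 1) ×ˢ Finset.range (k + 1))

theorem finite_monoSet (k : ℕ) : (monoSet k).Finite := (Finset.finite_toSet _).image _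

/-- The monomials span. -/
theorem mem_span_monoSet {k : ℕ} {S : PowerSeries ℚ} (h : IsRatForm k S) :
    S ∈ Submodule.span ℚ (monoSet k) := by
  classical
  obtain ⟨F, hF⟩ := h
  obtain ⟨x, hx⟩ := Finsupp.mem_span_range_iff_exists_finsupp.1
    (LevelOneRing.mem_span (k + 1) (k : ℤ) (by omega) F)
  rw [Finsupp.sum] at hx
  have hA : S.map (Rat.castHom ℂ) =
      ∑ i ∈ x.support, x i • (monoInt i.1).map (Int.castRingHom ℂ) := by
    rw [← hF]
    refine (hasQ_form F).unique one_pos ?_
    rw [← hx]
    exact HasQ.sum _ fun i _ => (hasQ_monomial (k : ℤ) i).smul (x i)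
  obtain ⟨φ, hφ⟩ := (Algebra.linearMap ℚ ℂ).exists_leftInverse_of_injective
    (LinearMap.ker_eq_bot.2 (fun a b hab => Rat.cast_injective (α := ℂ) (by simpa using hab)))
  have hφ' : ∀ q : ℚ, φ (q : ℂ) = q := fun q => by simpa using LinearMap.congr_fun hφ q
  have hS : S = ∑ i ∈ x.support, φ (x i) • (monoInt i.1).map (Int.castRingHom ℚ) := by
    refine PowerSeries.ext fun m => ?_
    have h1 := congrArg (fun A => φ (PowerSeries.coeff m A)) hA
    simp only [coeff_map, map_sum, PowerSeries.coeff_smul, eq_intCast, eq_ratCast, hφ',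
      smul_eq_mul] at h1
    simp only [h1, map_sum, PowerSeries.coeff_smul, coeff_map, eq_intCast, smul_eq_mul]
    refine Finset.sum_congr rfl fun i _ => ?_
    rw [show x i * ((coeff m (monoInt i.1) : ℤ) : ℂ) = (coeff m (monoInt i.1) : ℤ) • x i by
      rw [zsmul_eq_mul, mul_comm], map_zsmul, zsmul_eq_mul, mul_comm]
  rw [hS]
  refine Submodule.sum_mem _ fun i _ =>
    Submodule.smul_mem _ _ (Submodule.subset_span ⟨i.1, ?_, rfl⟩)
  obtain ⟨⟨u, v⟩, huv⟩ := i
  simp only [Finset.coe_product, Set.mem_prod, Finset.coe_range, Set.mem_Iio]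
  push_cast at huv
  omega

variable {p : ℕ} [Fact p.Prime] {k : ℕ}

/-- The span over `ℚ_p` of the rational forms of weight `k`. -/
def qpSpace (p k : ℕ) [Fact p.Prime] : Submodule ℚ_[p] (PowerSeries ℚ_[p]) :=
  Submodule.span ℚ_[p] (toQp p '' {S | IsRatForm k S})

theorem qpSpace_le : qpSpace p k ≤ Submodule.span ℚ_[p] (toQp p '' monoSet k) := by
  refine Submodule.span_le.2 ?_
  rintro _ ⟨S, hS, rfl⟩
  have h : S ∈ Submodule.span ℚ (monoSet k) := mem_span_monoSet hS
  clear hS
  induction h using Submodule.span_induction with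
  | mem x hx => exact Submodule.subset_span ⟨x, hx, rfl⟩
  | zero => simp
  | add x y _ _ hx hy =>
    rw [map_add]
    exact Submodule.add_mem _ hx hy
  | smul r x _ hx =>
    rw [PowerSeries.smul_eq_C_mul, map_mul, toQp, map_C, ← PowerSeries.smul_eq_C_mul]
    exact Submodule.smul_mem _ _ hx

instance finite_qpSpace : Module.Finite ℚ_[p] ↥(qpSpace p k) := by
  have : Module.Finite ℚ_[p] ↥(Submodule.span ℚ_[p] (toQp p '' monoSet k)) :=
    .span_of_finite _ ((finite_monoSet k).image _)
  exact Submodule.finiteDimensional_of_le qpSpace_le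

/-- Every series of the space is a combination of rational forms. -/
theorem exists_combination {f : PowerSeries ℚ_[p]} (h : f ∈ qpSpace p k) :
    ∃ (r : ℕ) (x : Fin r → ℚ_[p]) (S : Fin r → PowerSeries ℚ),
      (∀ i, IsRatForm k (S i)) ∧ f = ∑ i, C (x i) * toQp p (S i) := by
  obtain ⟨r, x, g, e⟩ := Submodule.mem_span_set'.1 h
  choose S hS hSg using fun i => (g i).2
  refine ⟨r, x, S, hS, ?_⟩
  rw [← e]
  exact Finset.sum_congr rfl fun i _ => by rw [hSg, PowerSeries.smul_eq_C_mul]

theorem isPadicForm_of_mem (h5 : 5 ≤ p) {f : PowerSeries ℚ_[p]} (h : f ∈ qpSpace p k) :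
    IsPadicForm f (natWeight p k) := by
  induction h using Submodule.span_induction with
  | mem x hx =>
    obtain ⟨S, hS, rfl⟩ := hx
    exact hS.isPadicForm
  | zero => exact isPadicForm_zero h5 _
  | add x y _ _ hx hy => exact hx.add h5 hy
  | smul c x _ hx =>
    rw [PowerSeries.smul_eq_C_mul]
    exact hx.C_mul c

/-- **The Hecke operators act.** -/
theorem tSer_mem (hk : 1 ≤ k) {l : ℕ} (hl : l.Prime) {f : PowerSeries ℚ_[p]}
    (h : f ∈ qpSpace p k) : tSer ((l : ℚ_[p]) ^ (k - 1)) l f ∈ qpSpace p k := by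
  induction h using Submodule.span_induction with
  | mem x hx =>
    obtain ⟨S, hS, rfl⟩ := hx
    exact Submodule.subset_span ⟨_, isRatForm_tSer hl hS hk, by
      rw [toQp, map_tSer, map_pow, map_natCast]⟩
  | zero => simp
  | add x y _ _ hx hy =>
    rw [map_add]
    exact Submodule.add_mem _ hx hy
  | smul c x _ hx =>
    rw [map_smul]
    exact Submodule.smul_mem _ _ hx

end FA.LevelOneControl

end
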